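/-
S12 / block FI (formal immersion at the cusp, function-field language), abstract core.
Coefficientwise estimates for Laurent series over a valued field.
-/
import Mathlib
import Fermat.Agent.S18.Vert.IntSeries

set_option autoImplicit false

namespace Fermat.Agent.S12.FI

open Fermat.Agent.S18.Vert

variable {K : Type*} [Field K] (A : ValuationSubring K)

/-- all coefficients have valuation `≤ |c|` -/
def Le (c : K) (f : LaurentSeries K) : Prop := ∀ n, A.valuation (f.coeff n) ≤ A.valuation c

/-- all coefficients have valuation `< |c|` -/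
def Lt (c : K) (f : LaurentSeries K) : Prop := ∀ n, A.valuation (f.coeff n) < A.valuation c

variable {A}
variable {a b c : K} {f g : LaurentSeries K}

theorem Lt.le (h : Lt A c f) : Le A c f := fun n => (h n).le

theorem Lt.ne_zero (h : Lt A c f) : c ≠ 0 := by
  rintro rfl
  have := h 0
  rw [map_zero] at this
  exact not_lt_zero this

theorem Le.mono (h : Le A a f) (hab : A.valuation a ≤ A.valuation b) : Le A b f :=
  fun n => (h n).trans hab

theorem Lt.mono (h : Lt A a f) (hab : A.valuation a ≤ A.valuation b) : Lt A b f :=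
  fun n => (h n).trans_le hab

theorem Le.lt_of_lt (h : Le A a f) (hab : A.valuation a < A.valuation b) : Lt A b f :=
  fun n => (h n).trans_lt hab

theorem le_zero (c : K) : Le A c 0 := fun n => by simp

theorem Le.add (hf : Le A c f) (hg : Le A c g) : Le A c (f + g) := fun n => by
  rw [HahnSeries.coeff_add]
  exact (A.valuation.map_add _ _).trans (max_le (hf n) (hg n))

theorem Lt.add (hf : Lt A c f) (hg : Lt A c g) : Lt A c (f + g) := fun n => by
  rw [HahnSeries.coeff_add]
  exact (A.valuation.map_add _ _).trans_lt (max_lt (hf n) (hg n))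

theorem Le.neg (hf : Le A c f) : Le A c (-f) := fun n => by
  rw [HahnSeries.coeff_neg, Valuation.map_neg]
  exact hf n

theorem Lt.neg (hf : Lt A c f) : Lt A c (-f) := fun n => by
  rw [HahnSeries.coeff_neg, Valuation.map_neg]
  exact hf n

theorem Le.sub (hf : Le A c f) (hg : Le A c g) : Le A c (f - g) := by
  rw [sub_eq_add_neg]
  exact hf.add hg.neg

theorem Lt.sub (hf : Lt A c f) (hg : Lt A c g) : Lt A c (f - g) := by
  rw [sub_eq_add_neg]
  exact hf.add hg.neg

theorem coeff_C_mul (a : K) (f : LaurentSeries K) (n : ℤ) :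
    (HahnSeries.C a * f).coeff n = a * f.coeff n := by
  rw [HahnSeries.C_mul_eq_smul, HahnSeries.coeff_smul, smul_eq_mul]

theorem Le.smul (hf : Le A c f) (a : K) : Le A (a * c) (HahnSeries.C a * f) := fun n => by
  rw [coeff_C_mul, map_mul, map_mul]
  exact mul_le_mul_right (hf n) _

theorem Lt.smul (hf : Lt A c f) (ha : a ≠ 0) : Lt A (a * c) (HahnSeries.C a * f) := fun n => by
  rw [coeff_C_mul, map_mul, map_mul]
  exact mul_lt_mul_of_pos_left (hf n) (zero_lt_iff.2 ((A.valuation.ne_zero_iff).2 ha))

/-- multiplication by a scalar of valuation `≤ 1` -/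
theorem Le.smul_le (hf : Le A c f) (ha : A.valuation a ≤ 1) : Le A c (HahnSeries.C a * f) :=
  (hf.smul a).mono (by rw [map_mul]; exact mul_le_of_le_one_left' ha)

theorem Lt.smul_le (hf : Lt A c f) (ha : A.valuation a ≤ 1) : Lt A c (HahnSeries.C a * f) := fun n => by
  rw [coeff_C_mul, map_mul]
  exact (mul_le_of_le_one_left' ha).trans_lt (hf n)

/-- multiplication by a scalar of valuation `< 1` -/
theorem Le.smul_lt (hf : Le A c f) (hc : c ≠ 0) (ha : A.valuation a < 1) : Lt A c (HahnSeries.C a * f) :=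
  fun n => by
  rw [coeff_C_mul, map_mul]
  have hc' : 0 < A.valuation c := zero_lt_iff.2 ((A.valuation.ne_zero_iff).2 hc)
  calc A.valuation a * A.valuation (f.coeff n) ≤ A.valuation a * A.valuation c :=
        mul_le_mul_right (hf n) _
    _ < 1 * A.valuation c := mul_lt_mul_of_pos_right ha hc'
    _ = A.valuation c := one_mul _

theorem Le.mul (hf : Le A a f) (hg : Le A b g) : Le A (a * b) (f * g) := fun n => by
  rw [HahnSeries.coeff_mul]
  refine A.valuation.map_sum_le fun ij _ => ?_
  rw [map_mul, map_mul]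
  exact mul_le_mul' (hf _) (hg _)

theorem Le.mul_lt (hf : Le A a f) (hg : Lt A b g) (ha : a ≠ 0) : Lt A (a * b) (f * g) :=
  fun n => by
  rw [HahnSeries.coeff_mul]
  have ha' : 0 < A.valuation a := zero_lt_iff.2 ((A.valuation.ne_zero_iff).2 ha)
  have hb' : 0 < A.valuation b := zero_lt_iff.2 ((A.valuation.ne_zero_iff).2 hg.ne_zero)
  refine A.valuation.map_sum_lt (by rw [map_mul]; exact (mul_pos ha' hb').ne') fun ij _ => ?_
  rw [map_mul, map_mul]
  calc A.valuation (f.coeff ij.1) * A.valuation (g.coeff ij.2)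
      ≤ A.valuation a * A.valuation (g.coeff ij.2) := mul_le_mul_left (hf _) _
    _ < A.valuation a * A.valuation b := mul_lt_mul_of_pos_left (hg _) ha'

theorem Lt.mul_le (hf : Lt A a f) (hg : Le A b g) (hb : b ≠ 0) : Lt A (a * b) (f * g) := by
  rw [mul_comm a b, mul_comm f g]
  exact hg.mul_lt hf hb

theorem le_one_one : Le A 1 (1 : LaurentSeries K) := fun n => by
  rw [HahnSeries.coeff_one, map_one]
  split_ifs
  · rw [map_one]
  · rw [map_zero]; exact zero_le

/-- `f ≡ 1` implies `f` integral -/
theorem Lt.le_of_sub_one (h : Lt A 1 (f - 1)) : Le A 1 f := by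
  have := h.le.add (le_one_one (A := A))
  rwa [sub_add_cancel] at this

theorem le_iff_smul (ha : a ≠ 0) : Le A a f ↔ Le A 1 (HahnSeries.C a⁻¹ * f) := by
  constructor
  · intro h
    have := h.smul a⁻¹
    rwa [inv_mul_cancel₀ ha] at this
  · intro h
    have := h.smul a
    rwa [mul_one, ← mul_assoc, ← map_mul, mul_inv_cancel₀ ha, map_one, one_mul] at this

theorem lt_iff_smul (ha : a ≠ 0) : Lt A a f ↔ Lt A 1 (HahnSeries.C a⁻¹ * f) := by
  constructor
  · intro h
    have := h.smul (inv_ne_zero ha)
    rwa [inv_mul_cancel₀ ha] at this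
  · intro h
    have := h.smul ha
    rwa [mul_one, ← mul_assoc, ← map_mul, mul_inv_cancel₀ ha, map_one, one_mul] at this

/-- `Lt 1` is the kernel of the reduction -/
theorem lt_one_inc_iff (P : LaurentSeries A) : Lt A 1 (inc A P) ↔ red A P = 0 := by
  constructor
  · intro h
    ext n
    rw [red_coeff, HahnSeries.coeff_zero, IsLocalRing.residue_eq_zero_iff,
      ValuationSubring.valuation_lt_one_iff]
    have := h n
    rwa [inc_coeff, map_one] at this
  · intro h n
    have h1 := congrArg (fun x => HahnSeries.coeff x n) h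
    simp only [red_coeff, HahnSeries.coeff_zero] at h1
    rw [IsLocalRing.residue_eq_zero_iff, ValuationSubring.valuation_lt_one_iff] at h1
    rwa [inc_coeff, map_one]

theorem Le.exists_inc (h : Le A 1 f) : ∃ P : LaurentSeries A, inc A P = f :=
  (mem_range_inc_iff A f).2 fun n => by
    have := h n
    rw [map_one] at this
    exact (A.valuation_le_one_iff _).1 this

/-- **Gauss lemma** -/
theorem lt_one_or_of_mul (hf : Le A 1 f) (hg : Le A 1 g) (h : Lt A 1 (f * g)) :
    Lt A 1 f ∨ Lt A 1 g := by
  obtain ⟨P, rfl⟩ := hf.exists_inc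
  obtain ⟨Q, rfl⟩ := hg.exists_inc
  rw [← map_mul, lt_one_inc_iff, map_mul, mul_eq_zero] at h
  rcases h with h | h
  · exact Or.inl ((lt_one_inc_iff P).2 h)
  · exact Or.inr ((lt_one_inc_iff Q).2 h)

/-- a series `≡ 1` is not `≡ 0` -/
theorem not_lt_one_of_sub_one (h : Lt A 1 (f - 1)) : ¬ Lt A 1 f := by
  intro h'
  have h1 := (h'.sub h) 0
  rw [sub_sub_cancel, HahnSeries.coeff_one, if_pos rfl] at h1
  exact lt_irrefl _ h1

/-- the product of the Gauss norms of two series with `f g ≡ 1` is `1` -/
theorem valuation_mul_eq_one (ha : a ≠ 0) (hb : b ≠ 0) (hf : Le A a f) (hf' : ¬ Lt A a f)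
    (hg : Le A b g) (hg' : ¬ Lt A b g) (h : Lt A 1 (f * g - 1)) : A.valuation (a * b) = 1 := by
  have hab : a * b ≠ 0 := mul_ne_zero ha hb
  have h1 : ¬ Lt A (a * b) (f * g) := by
    intro h2
    rw [lt_iff_smul hab] at h2
    have e : HahnSeries.C (a * b)⁻¹ * (f * g) =
        (HahnSeries.C a⁻¹ * f) * (HahnSeries.C b⁻¹ * g) := by
      rw [mul_inv, map_mul]
      ring
    rw [e] at h2
    rcases lt_one_or_of_mul ((le_iff_smul ha).1 hf) ((le_iff_smul hb).1 hg) h2 with h3 | h3
    · exact hf' ((lt_iff_smul ha).2 h3)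
    · exact hg' ((lt_iff_smul hb).2 h3)
  have h2 : Le A (a * b) (f * g) := hf.mul hg
  rcases lt_trichotomy (A.valuation (a * b)) 1 with h3 | h3 | h3
  · exact absurd (h2.lt_of_lt (by rwa [map_one])) (not_lt_one_of_sub_one h)
  · exact h3
  · exact absurd (h.le_of_sub_one.lt_of_lt (by rwa [map_one])) h1

end Fermat.Agent.S12.FI
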