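/-
S12 / block FI, abstract core: steps (C) + (M) of the blueprint (report #1479).
Two charts `Rinf` (functions regular off `∞`) and `Rzero` (functions regular off `0`), both seen
inside `K((q))` through the expansion at `∞`.
-/
import Fermat.Agent.S12.FI.Core.Basic

set_option autoImplicit false

namespace Fermat.Agent.S12.FI

open HahnSeries (C)

variable {K : Type*} [Field K] (A : ValuationSubring K)

/-- The abstract two-chart situation. -/
structure TwoChart (Rinf Rzero : Subring (LaurentSeries K)) : Prop where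
  const_inf : ∀ c : K, C c ∈ Rinf
  const_zero : ∀ c : K, C c ∈ Rzero
  /-- functions regular off `0` are power series at `∞` -/
  pow_zero : ∀ f ∈ Rzero, ∀ n : ℤ, n < 0 → f.coeff n = 0
  /-- Gauss norms exist -/
  gauss_inf : ∀ f ∈ Rinf, f ≠ 0 → ∃ a : K, a ≠ 0 ∧ Le A a f ∧ ¬ Lt A a f
  gauss_zero : ∀ f ∈ Rzero, f ≠ 0 → ∃ a : K, a ≠ 0 ∧ Le A a f ∧ ¬ Lt A a f
  /-- the Čech lemma -/
  cech : ∀ f₁ ∈ Rinf, ∀ f₂ ∈ Rzero, Le A 1 f₁ → Le A 1 f₂ → Lt A 1 (f₁ - f₂) →
    ∃ c : K, Lt A 1 (f₁ - C c)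

variable {A}

theorem coeff_C (c : K) (n : ℤ) : (C c : LaurentSeries K).coeff n = if n = 0 then c else 0 := by
  rw [HahnSeries.C_apply, HahnSeries.coeff_single]
  congr 1

theorem le_C (c : K) : Le A c (C c) := fun n => by
  rw [coeff_C]
  split_ifs
  · exact le_rfl
  · rw [map_zero]; exact zero_le

/-- a norm, allowing the zero series -/
theorem exists_norm {R : Subring (LaurentSeries K)}
    (hg : ∀ f ∈ R, f ≠ 0 → ∃ a : K, a ≠ 0 ∧ Le A a f ∧ ¬ Lt A a f) {f : LaurentSeries K}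
    (hf : f ∈ R) : ∃ a : K, Le A a f ∧ (a ≠ 0 → ¬ Lt A a f) := by
  by_cases h0 : f = 0
  · exact ⟨0, h0 ▸ le_zero 0, fun h => absurd rfl h⟩
  · obtain ⟨a, -, h1, h2⟩ := hg f hf h0
    exact ⟨a, h1, fun _ => h2⟩

/-- subtracting the right multiple of `P ≡ 1` kills the constant coefficient -/
theorem exists_sub_const {X P : LaurentSeries K} {c : K} (hX : Le A 1 X) (hP : Lt A 1 (P - 1))
    (hc : Lt A 1 (X - C c)) :
    ∃ c₀ : K, A.valuation (c₀ - c) < 1 ∧ (X - C c₀ * P).coeff 0 = 0 ∧ Lt A 1 (X - C c₀ * P) := by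
  have hu : A.valuation (P.coeff 0 - 1) < 1 := by
    have := hP 0
    rwa [HahnSeries.coeff_sub, HahnSeries.coeff_one, if_pos rfl, map_one] at this
  have hu1 : A.valuation (P.coeff 0) = 1 := by
    have h := A.valuation.map_add_eq_of_lt_left (x := 1) (y := P.coeff 0 - 1)
      (by rwa [map_one])
    rwa [add_sub_cancel, map_one] at h
  have hu0 : P.coeff 0 ≠ 0 := by
    intro h
    rw [h, map_zero] at hu1
    exact zero_ne_one hu1
  have hc0 : A.valuation (X.coeff 0 - c) < 1 := by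
    have := hc 0
    rwa [HahnSeries.coeff_sub, coeff_C, if_pos rfl, map_one] at this
  have hcle : A.valuation c ≤ 1 := by
    have h1 : c = X.coeff 0 - (X.coeff 0 - c) := by ring
    rw [h1]
    refine (A.valuation.map_sub _ _).trans (max_le ?_ hc0.le)
    have := hX 0
    rwa [map_one] at this
  have hd : A.valuation (X.coeff 0 / P.coeff 0 - c) < 1 := by
    have h1 : X.coeff 0 / P.coeff 0 - c =
        ((X.coeff 0 - c) - c * (P.coeff 0 - 1)) / P.coeff 0 := by
      field_simp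
      ring
    rw [h1, map_div₀, hu1, div_one]
    refine (A.valuation.map_sub _ _).trans_lt (max_lt hc0 ?_)
    rw [map_mul]
    exact (mul_le_of_le_one_left' hcle).trans_lt hu
  refine ⟨X.coeff 0 / P.coeff 0, hd, ?_, ?_⟩
  · rw [HahnSeries.coeff_sub, coeff_C_mul, div_mul_cancel₀ _ hu0, sub_self]
  · have e : X - C (X.coeff 0 / P.coeff 0) * P =
        (X - C c) - C (X.coeff 0 / P.coeff 0 - c) * P - C c * (P - 1) := by
      rw [map_sub]
      ring
    rw [e]
    exact (hc.sub (hP.le_of_sub_one.smul_lt one_ne_zero hd)).sub (hP.smul_le hcle)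

theorem valuation_eq_one_of_sub_lt {x y : K} (h : A.valuation (x - y) < 1)
    (hy : A.valuation y = 1) : A.valuation x = 1 := by
  have h1 := A.valuation.map_add_eq_of_lt_left (x := y) (y := x - y) (by rwa [hy])
  rwa [add_sub_cancel, hy] at h1

section Normalized

variable {Rinf Rzero : Subring (LaurentSeries K)}
variable {X P X' P' Z ψ : LaurentSeries K} {μ : K}

/-- the normalised form of the core -/
theorem core_normalized (T : TwoChart A Rinf Rzero)
    (hμ0 : μ ≠ 0) (hμ : A.valuation μ < 1) (hψ : Le A 1 ψ)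
    (hX : X ∈ Rinf) (hP : P ∈ Rinf) (hX' : X' ∈ Rzero) (hP' : P' ∈ Rzero) (hZ : Z ∈ Rzero)
    (hP1 : Lt A 1 (P - 1)) (hP'1 : Lt A 1 (P' - 1)) (hZ1 : Lt A 1 (Z * X' - 1))
    (hS : Lt A μ (X * X' - P * P' * (1 - C μ * ψ)))
    (hXi : Le A 1 X) (hX'i : Le A 1 X') (hX'n : ¬ Lt A 1 X') :
    ∃ Y ∈ Rinf, Le A 1 Y ∧ ∀ n : ℤ, n < 0 → A.valuation (Y.coeff n + ψ.coeff n) < 1 := by
  have hμ1 : A.valuation μ ≤ A.valuation (1 : K) := by rw [map_one]; exact hμ.le
  have hPi : Le A 1 P := hP1.le_of_sub_one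
  have hP'i : Le A 1 P' := hP'1.le_of_sub_one
  have mul1 : ∀ {f g : LaurentSeries K}, Le A 1 f → Le A 1 g → Le A 1 (f * g) := by
    intro f g hf hg
    have := hf.mul hg
    rwa [mul_one] at this
  have mul2 : ∀ {a : K} {f g : LaurentSeries K}, a ≠ 0 → Lt A 1 f → Le A a g → Lt A a (f * g) := by
    intro a f g ha hf hg
    have := hf.mul_le hg ha
    rwa [one_mul] at this
  -- `P P' ≡ 1`
  have hPP : Lt A 1 (P * P' - 1) := by
    have e : P * P' - 1 = (P - 1) * P' + (P' - 1) := by ring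
    rw [e]
    exact (mul2 one_ne_zero hP1 hP'i).add hP'1
  have hPPi : Le A 1 (P * P') := mul1 hPi hP'i
  -- `X X' ≡ 1`
  have hXX : Lt A 1 (X * X' - 1) := by
    have e : X * X' - 1 = (X * X' - P * P' * (1 - C μ * ψ)) + (P * P' - 1)
        - C μ * (P * P' * ψ) := by ring
    rw [e]
    exact ((hS.mono hμ1).add hPP).sub ((mul1 hPPi hψ).smul_lt one_ne_zero hμ)
  -- `Z` is integral
  have hZi : Le A 1 Z := by
    have hZ0 : Z ≠ 0 := by
      rintro rfl
      rw [zero_mul] at hZ1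
      exact not_lt_one_of_sub_one hZ1 (fun n => by simp)
    obtain ⟨z, hz0, hz1, hz2⟩ := T.gauss_zero Z hZ hZ0
    have := valuation_mul_eq_one hz0 one_ne_zero hz1 hz2 hX'i hX'n hZ1
    rw [mul_one] at this
    exact hz1.mono (by rw [this, map_one])
  -- `X ≡ Z`
  have hXZ : Lt A 1 (X - Z) := by
    have h1 : Lt A 1 ((X - Z) * X') := by
      have e : (X - Z) * X' = (X * X' - 1) - (Z * X' - 1) := by ring
      rw [e]
      exact hXX.sub hZ1
    exact (lt_one_or_of_mul (hXi.sub hZi) hX'i h1).resolve_right hX'n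
  obtain ⟨c, hc⟩ := T.cech X hX Z hZ hXi hZi hXZ
  -- `c` is a unit
  have hcX' : Lt A 1 (C c * X' - 1) := by
    have e : C c * X' - 1 = (X * X' - 1) - (X - C c) * X' := by ring
    rw [e]
    exact hXX.sub (mul2 one_ne_zero hc hX'i)
  have hc1 : A.valuation c = 1 := by
    have hcle : A.valuation c ≤ 1 := by
      have h1 := (hXi.sub hc.le) 0
      rwa [sub_sub_cancel, coeff_C, if_pos rfl, map_one] at h1
    rcases hcle.lt_or_eq with h | h
    · exact absurd (hX'i.smul_lt one_ne_zero h) (not_lt_one_of_sub_one hcX')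
    · exact h
  have hc0 : c ≠ 0 := by
    rintro rfl
    rw [map_zero] at hc1
    exact zero_ne_one hc1
  have hc' : Lt A 1 (X' - C c⁻¹) := by
    have e : X' - C c⁻¹ = C c⁻¹ * (C c * X' - 1) := by
      rw [mul_sub, ← mul_assoc, ← map_mul, inv_mul_cancel₀ hc0, map_one, one_mul, mul_one]
    rw [e]
    exact hcX'.smul_le (by rw [map_inv₀, hc1, inv_one])
  obtain ⟨c₀, hc₀, hW0, hW⟩ := exists_sub_const hXi hP1 hc
  obtain ⟨c₀', hc₀', hW'0, hW'⟩ := exists_sub_const hX'i hP'1 hc'
  have hv₀ : A.valuation c₀ = 1 := valuation_eq_one_of_sub_lt hc₀ hc1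
  have hv₀' : A.valuation c₀' = 1 :=
    valuation_eq_one_of_sub_lt hc₀' (by rw [map_inv₀, hc1, inv_one])
  have hn₀' : c₀' ≠ 0 := by
    rintro rfl
    rw [map_zero] at hv₀'
    exact zero_ne_one hv₀'
  set W := X - C c₀ * P with hWdef
  set W' := X' - C c₀' * P' with hW'def
  have hWR : W ∈ Rinf := Rinf.sub_mem hX (Rinf.mul_mem (T.const_inf _) hP)
  have hW'R : W' ∈ Rzero := Rzero.sub_mem hX' (Rzero.mul_mem (T.const_zero _) hP')
  set d := c₀ * c₀' - 1 with hd
  -- the coefficient `u` of `P P'`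
  have hu1 : A.valuation ((P * P').coeff 0) = 1 := by
    have h := hPP 0
    rw [HahnSeries.coeff_sub, HahnSeries.coeff_one, if_pos rfl, map_one] at h
    exact valuation_eq_one_of_sub_lt h (map_one _)
  -- the basic congruence
  have step : ∀ a : K, a ≠ 0 → A.valuation μ ≤ A.valuation a → Le A a W → Le A a W' →
      Lt A a (C d * (P * P') + C c₀ * W' + C c₀' * W + C μ * ψ) := by
    intro a ha hμa hWa hW'a
    have e : C d * (P * P') + C c₀ * W' + C c₀' * W + C μ * ψ =
        (X * X' - P * P' * (1 - C μ * ψ)) - C c₀ * ((P - 1) * W') - C c₀' * ((P' - 1) * W)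
          - W' * W - C μ * ((P * P' - 1) * ψ) := by
      rw [hd, hWdef, hW'def, map_sub, map_mul, map_one]
      ring
    rw [e]
    refine ((((hS.mono hμa).sub ?_).sub ?_).sub ?_).sub ?_
    · exact (mul2 ha hP1 hW'a).smul_le hv₀.le
    · exact (mul2 ha hP'1 hWa).smul_le hv₀'.le
    · exact mul2 ha hW' hWa
    · have h1 : Lt A 1 ((P * P' - 1) * ψ) := mul2 one_ne_zero hPP hψ
      have h2 := h1.smul hμ0
      rw [mul_one] at h2
      exact h2.mono hμa
  have coeff0 : ∀ a : K, (C d * (P * P') + C c₀ * W' + C c₀' * W + C μ * ψ).coeff 0 =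
      d * (P * P').coeff 0 + μ * ψ.coeff 0 := by
    intro _
    rw [HahnSeries.coeff_add, HahnSeries.coeff_add, HahnSeries.coeff_add, coeff_C_mul, coeff_C_mul,
      coeff_C_mul, coeff_C_mul, hW0, hW'0, mul_zero, mul_zero, add_zero, add_zero]
  have hψ0 : A.valuation (μ * ψ.coeff 0) ≤ A.valuation μ := by
    rw [map_mul]
    have := hψ 0
    rw [map_one] at this
    exact mul_le_of_le_one_right' this
  -- the Gauss norms of `W`, `W'` are at most `|μ|`
  have hbound : Le A μ W ∧ Le A μ W' := by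
    obtain ⟨al, hal1, hal2⟩ := exists_norm T.gauss_inf hWR
    obtain ⟨al', hal'1, hal'2⟩ := exists_norm T.gauss_zero hW'R
    obtain ⟨a, ha1, ha2, ha3⟩ : ∃ a : K, Le A a W ∧ Le A a W' ∧
        (a ≠ 0 → ¬ (Lt A a W ∧ Lt A a W')) := by
      rcases le_total (A.valuation al) (A.valuation al') with h | h
      · exact ⟨al', hal1.mono h, hal'1, fun h0 h1 => hal'2 h0 h1.2⟩
      · exact ⟨al, hal1, hal'1.mono h, fun h0 h1 => hal2 h0 h1.1⟩
    rcases le_or_gt (A.valuation a) (A.valuation μ) with h | h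
    · exact ⟨ha1.mono h, ha2.mono h⟩
    exfalso
    have ha0 : a ≠ 0 := by
      rintro rfl
      rw [map_zero] at h
      exact not_lt_zero h
    have h1 := step a ha0 h.le ha1 ha2
    have hdlt : A.valuation d < A.valuation a := by
      have h2 := h1 0
      rw [coeff0 a] at h2
      have h3 : d * (P * P').coeff 0 =
          (d * (P * P').coeff 0 + μ * ψ.coeff 0) - μ * ψ.coeff 0 := by ring
      have h4 : A.valuation (d * (P * P').coeff 0) < A.valuation a := by
        rw [h3]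
        exact (A.valuation.map_sub _ _).trans_lt (max_lt h2 (hψ0.trans_lt h))
      rwa [map_mul, hu1, mul_one] at h4
    have h2 : Lt A a (C c₀' * W + C c₀ * W') := by
      have e : C c₀' * W + C c₀ * W' = (C d * (P * P') + C c₀ * W' + C c₀' * W + C μ * ψ)
          - C d * (P * P') - C μ * ψ := by ring
      rw [e]
      refine (h1.sub ?_).sub ?_
      · have := hPPi.smul d
        rw [mul_one] at this
        exact this.lt_of_lt hdlt
      · have := hψ.smul μ
        rw [mul_one] at this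
        exact this.lt_of_lt h
    -- Čech
    have hE1 : Le A 1 (C a⁻¹ * (C c₀' * W)) := (le_iff_smul ha0).1 (ha1.smul_le hv₀'.le)
    have hE2 : Le A 1 (C a⁻¹ * (-(C c₀ * W'))) := (le_iff_smul ha0).1 (ha2.smul_le hv₀.le).neg
    have hE12 : Lt A 1 (C a⁻¹ * (C c₀' * W) - C a⁻¹ * (-(C c₀ * W'))) := by
      have e : C a⁻¹ * (C c₀' * W) - C a⁻¹ * (-(C c₀ * W')) =
          C a⁻¹ * (C c₀' * W + C c₀ * W') := by ring
      rw [e]
      exact (lt_iff_smul ha0).1 h2
    obtain ⟨e, he⟩ := T.cech _ (Rinf.mul_mem (T.const_inf _) (Rinf.mul_mem (T.const_inf _) hWR)) _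
      (Rzero.mul_mem (T.const_zero _) (Rzero.neg_mem (Rzero.mul_mem (T.const_zero _) hW'R)))
      hE1 hE2 hE12
    have hev : A.valuation e < 1 := by
      have h3 := he 0
      rwa [HahnSeries.coeff_sub, coeff_C_mul, coeff_C_mul, hW0, mul_zero, mul_zero, zero_sub,
        coeff_C, if_pos rfl, Valuation.map_neg, map_one] at h3
    have hE1s : Lt A 1 (C a⁻¹ * (C c₀' * W)) := by
      have h3 : Lt A 1 (C e : LaurentSeries K) := (le_C e).lt_of_lt (by rwa [map_one])
      have := he.add h3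
      rwa [sub_add_cancel] at this
    have hE2s : Lt A 1 (C a⁻¹ * (-(C c₀ * W'))) := by
      have := hE1s.sub hE12
      rwa [sub_sub_cancel] at this
    have unscale : ∀ {x : K} {f : LaurentSeries K}, A.valuation x = 1 → Lt A a (C x * f) →
        Lt A a f := by
      intro x f hx hf n
      have := hf n
      rwa [coeff_C_mul, map_mul, hx, one_mul] at this
    refine ha3 ha0 ⟨unscale hv₀' ((lt_iff_smul ha0).2 hE1s), unscale hv₀ ?_⟩
    have := ((lt_iff_smul ha0).2 hE2s).neg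
    rwa [neg_neg] at this
  -- conclusion
  have h1 := step μ hμ0 le_rfl hbound.1 hbound.2
  refine ⟨C μ⁻¹ * (C c₀' * W), Rinf.mul_mem (T.const_inf _) (Rinf.mul_mem (T.const_inf _) hWR),
    (le_iff_smul hμ0).1 (hbound.1.smul_le hv₀'.le), fun n hn => ?_⟩
  have hdle : A.valuation d ≤ A.valuation μ := by
    have h2 := h1 0
    rw [coeff0 μ] at h2
    have h3 : d * (P * P').coeff 0 =
        (d * (P * P').coeff 0 + μ * ψ.coeff 0) - μ * ψ.coeff 0 := by ring
    have h4 : A.valuation (d * (P * P').coeff 0) ≤ A.valuation μ := by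
      rw [h3]
      exact (A.valuation.map_sub _ _).trans (max_le h2.le hψ0)
    rwa [map_mul, hu1, mul_one] at h4
  have h2 := h1 n
  rw [HahnSeries.coeff_add, HahnSeries.coeff_add, HahnSeries.coeff_add, coeff_C_mul, coeff_C_mul,
    coeff_C_mul, coeff_C_mul, T.pow_zero W' hW'R n hn, mul_zero, add_zero] at h2
  have h3 : A.valuation (d * (P * P').coeff n) < A.valuation μ := by
    have h4 := hPP n
    rw [HahnSeries.coeff_sub, HahnSeries.coeff_one, if_neg hn.ne, sub_zero, map_one] at h4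
    rw [map_mul]
    have hμpos : 0 < A.valuation μ := zero_lt_iff.2 ((A.valuation.ne_zero_iff).2 hμ0)
    calc A.valuation d * A.valuation ((P * P').coeff n)
        ≤ A.valuation μ * A.valuation ((P * P').coeff n) := mul_le_mul_left hdle _
      _ < A.valuation μ * 1 := mul_lt_mul_of_pos_left h4 hμpos
      _ = A.valuation μ := mul_one _
  have h5 : A.valuation (c₀' * W.coeff n + μ * ψ.coeff n) < A.valuation μ := by
    have e : c₀' * W.coeff n + μ * ψ.coeff n =
        (d * (P * P').coeff n + c₀' * W.coeff n + μ * ψ.coeff n) - d * (P * P').coeff n := by ring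
    rw [e]
    exact (A.valuation.map_sub _ _).trans_lt (max_lt h2 h3)
  rw [coeff_C_mul, coeff_C_mul]
  have e : μ⁻¹ * (c₀' * W.coeff n) + ψ.coeff n = μ⁻¹ * (c₀' * W.coeff n + μ * ψ.coeff n) := by
    field_simp
  rw [e, map_mul, map_inv₀]
  have hμpos : 0 < A.valuation μ := zero_lt_iff.2 ((A.valuation.ne_zero_iff).2 hμ0)
  rw [inv_mul_lt_iff₀ hμpos, mul_one]
  exact h5

/-- **The abstract core of FI** (steps (C), (M)). -/
theorem core (T : TwoChart A Rinf Rzero)
    (hμ0 : μ ≠ 0) (hμ : A.valuation μ < 1) (hψ : Le A 1 ψ)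
    (hX : X ∈ Rinf) (hP : P ∈ Rinf) (hX' : X' ∈ Rzero) (hP' : P' ∈ Rzero) (hZ : Z ∈ Rzero)
    (hP1 : Lt A 1 (P - 1)) (hP'1 : Lt A 1 (P' - 1)) (hZ1 : Lt A 1 (Z * X' - 1))
    (hS : Lt A μ (X * X' - P * P' * (1 - C μ * ψ))) :
    ∃ Y ∈ Rinf, Le A 1 Y ∧ ∀ n : ℤ, n < 0 → A.valuation (Y.coeff n + ψ.coeff n) < 1 := by
  have hμ1 : A.valuation μ ≤ A.valuation (1 : K) := by rw [map_one]; exact hμ.le
  have hPi : Le A 1 P := hP1.le_of_sub_one
  have hP'i : Le A 1 P' := hP'1.le_of_sub_one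
  have hPPi : Le A 1 (P * P') := by
    have := hPi.mul hP'i
    rwa [mul_one] at this
  have hPP : Lt A 1 (P * P' - 1) := by
    have e : P * P' - 1 = (P - 1) * P' + (P' - 1) := by ring
    rw [e]
    have := hP1.mul_le hP'i one_ne_zero
    rw [mul_one] at this
    exact this.add hP'1
  have hXX : Lt A 1 (X * X' - 1) := by
    have e : X * X' - 1 = (X * X' - P * P' * (1 - C μ * ψ)) + (P * P' - 1)
        - C μ * (P * P' * ψ) := by ring
    rw [e]
    have h1 : Le A 1 (P * P' * ψ) := by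
      have := hPPi.mul hψ
      rwa [mul_one] at this
    exact ((hS.mono hμ1).add hPP).sub (h1.smul_lt one_ne_zero hμ)
  have hX0 : X ≠ 0 := by
    rintro rfl
    rw [zero_mul] at hXX
    exact not_lt_one_of_sub_one hXX (fun n => by simp)
  have hX'0 : X' ≠ 0 := by
    rintro rfl
    rw [mul_zero] at hXX
    exact not_lt_one_of_sub_one hXX (fun n => by simp)
  obtain ⟨a, ha0, ha1, ha2⟩ := T.gauss_inf X hX hX0
  obtain ⟨b, hb0, hb1, hb2⟩ := T.gauss_zero X' hX' hX'0
  have hab := valuation_mul_eq_one ha0 hb0 ha1 ha2 hb1 hb2 hXX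
  have e1 : (C a⁻¹ * X) * (C a * X') = X * X' := by
    have : (C a⁻¹ : LaurentSeries K) * C a = 1 := by
      rw [← map_mul, inv_mul_cancel₀ ha0, map_one]
    calc (C a⁻¹ * X) * (C a * X') = (C a⁻¹ * C a) * (X * X') := by ring
      _ = X * X' := by rw [this, one_mul]
  have e2 : (C a⁻¹ * Z) * (C a * X') = Z * X' := by
    have : (C a⁻¹ : LaurentSeries K) * C a = 1 := by
      rw [← map_mul, inv_mul_cancel₀ ha0, map_one]
    calc (C a⁻¹ * Z) * (C a * X') = (C a⁻¹ * C a) * (Z * X') := by ring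
      _ = Z * X' := by rw [this, one_mul]
  refine core_normalized T hμ0 hμ hψ (X := C a⁻¹ * X) (X' := C a * X') (Z := C a⁻¹ * Z)
    (Rinf.mul_mem (T.const_inf _) hX) hP (Rzero.mul_mem (T.const_zero _) hX') hP'
    (Rzero.mul_mem (T.const_zero _) hZ) hP1 hP'1 (by rw [e2]; exact hZ1) (by rw [e1]; exact hS)
    ((le_iff_smul ha0).1 ha1) ?_ ?_
  · exact (hb1.smul a).mono (by rw [hab, map_one])
  · intro h
    apply hb2
    have h1 := h.smul (inv_ne_zero ha0)
    rw [mul_one, ← mul_assoc, ← map_mul, inv_mul_cancel₀ ha0, map_one, one_mul] at h1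
    refine h1.mono ?_
    rw [map_mul] at hab
    rw [map_inv₀]
    have hapos : 0 < A.valuation a := zero_lt_iff.2 ((A.valuation.ne_zero_iff).2 ha0)
    rw [inv_le_iff_one_le_mul₀ hapos, mul_comm, hab]

end Normalized

end Fermat.Agent.S12.FI
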