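/-
S12 / block FI, abstract core: the form of `core` in which `S = Nn / D` is a quotient of two series
`Nn = 1 - μ ψ₁ mod μ 𝔪`, `D = 1 - μ ψ₂ mod μ 𝔪` (no division, every estimate is coefficientwise).
-/
import Fermat.Agent.S12.FI.Core.Main

set_option autoImplicit false

namespace Fermat.Agent.S12.FI

open HahnSeries (C)

variable {K : Type*} [Field K] {A : ValuationSubring K}
variable {Rinf Rzero : Subring (LaurentSeries K)}
variable {X P X' P' Z ψ₁ ψ₂ Nn D : LaurentSeries K} {μ : K}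

/-- the norm of a product -/
theorem not_lt_mul {a b : K} {f g : LaurentSeries K} (ha : a ≠ 0) (hb : b ≠ 0) (hf : Le A a f)
    (hf' : ¬ Lt A a f) (hg : Le A b g) (hg' : ¬ Lt A b g) : ¬ Lt A (a * b) (f * g) := by
  intro h2
  rw [lt_iff_smul (mul_ne_zero ha hb)] at h2
  have e : C (a * b)⁻¹ * (f * g) = (C a⁻¹ * f) * (C b⁻¹ * g) := by
    rw [mul_inv, map_mul]
    ring
  rw [e] at h2
  rcases lt_one_or_of_mul ((le_iff_smul ha).1 hf) ((le_iff_smul hb).1 hg) h2 with h3 | h3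
  · exact hf' ((lt_iff_smul ha).2 h3)
  · exact hg' ((lt_iff_smul hb).2 h3)

/-- **The abstract core of FI**, quotient form. -/
theorem core' (T : TwoChart A Rinf Rzero)
    (hμ0 : μ ≠ 0) (hμ : A.valuation μ < 1) (hψ₁ : Le A 1 ψ₁) (hψ₂ : Le A 1 ψ₂)
    (hX : X ∈ Rinf) (hP : P ∈ Rinf) (hX' : X' ∈ Rzero) (hP' : P' ∈ Rzero) (hZ : Z ∈ Rzero)
    (hP1 : Lt A 1 (P - 1)) (hP'1 : Lt A 1 (P' - 1)) (hZ1 : Lt A 1 (Z * X' - 1))
    (hN : Lt A μ (Nn - 1 + C μ * ψ₁)) (hD : Lt A μ (D - 1 + C μ * ψ₂))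
    (hS : X * X' * D = P * P' * Nn) :
    ∃ Y ∈ Rinf, Le A 1 Y ∧
      ∀ n : ℤ, n < 0 → A.valuation (Y.coeff n + (ψ₁.coeff n - ψ₂.coeff n)) < 1 := by
  have hμ1 : A.valuation μ ≤ A.valuation (1 : K) := by rw [map_one]; exact hμ.le
  have mul1 : ∀ {f g : LaurentSeries K}, Le A 1 f → Le A 1 g → Le A 1 (f * g) := by
    intro f g hf hg
    have := hf.mul hg
    rwa [mul_one] at this
  have mul2 : ∀ {a : K} {f g : LaurentSeries K}, a ≠ 0 → Lt A a f → Le A 1 g → Lt A a (f * g) := by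
    intro a f g _ hf hg
    have := hf.mul_le hg one_ne_zero
    rwa [mul_one] at this
  have hPi : Le A 1 P := hP1.le_of_sub_one
  have hP'i : Le A 1 P' := hP'1.le_of_sub_one
  have hPPi : Le A 1 (P * P') := mul1 hPi hP'i
  have hPP : Lt A 1 (P * P' - 1) := by
    have e : P * P' - 1 = (P - 1) * P' + (P' - 1) := by ring
    rw [e]
    exact (mul2 one_ne_zero hP1 hP'i).add hP'1
  have small : ∀ {ψ : LaurentSeries K}, Le A 1 ψ → Lt A 1 (C μ * ψ) :=
    fun hψ => hψ.smul_lt one_ne_zero hμ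
  have hN1 : Lt A 1 (Nn - 1) := by
    have := (hN.mono hμ1).sub (small hψ₁)
    rwa [add_sub_cancel_right] at this
  have hD1 : Lt A 1 (D - 1) := by
    have := (hD.mono hμ1).sub (small hψ₂)
    rwa [add_sub_cancel_right] at this
  have hDi : Le A 1 D := hD1.le_of_sub_one
  have hNi : Le A 1 Nn := hN1.le_of_sub_one
  have hDn : ¬ Lt A 1 D := not_lt_one_of_sub_one hD1
  -- `X X' D ≡ 1`
  have hYD : Lt A 1 (X * X' * D - 1) := by
    rw [hS]
    have e : P * P' * Nn - 1 = (P * P' - 1) * Nn + (Nn - 1) := by ring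
    rw [e]
    exact (mul2 one_ne_zero hPP hNi).add hN1
  have hY0 : X * X' ≠ 0 := by
    intro h
    rw [h, zero_mul] at hYD
    exact not_lt_one_of_sub_one hYD (fun n => by simp)
  obtain ⟨a, ha0, ha1, ha2⟩ := T.gauss_inf X hX (left_ne_zero_of_mul hY0)
  obtain ⟨b, hb0, hb1, hb2⟩ := T.gauss_zero X' hX' (right_ne_zero_of_mul hY0)
  have hYi : Le A 1 (X * X') := by
    have h1 := valuation_mul_eq_one (mul_ne_zero ha0 hb0) one_ne_zero (ha1.mul hb1)
      (not_lt_mul ha0 hb0 ha1 ha2 hb1 hb2) hDi hDn hYD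
    rw [mul_one] at h1
    exact (ha1.mul hb1).mono (by rw [h1, map_one])
  -- `X X' ≡ P P'`
  have hND : Lt A 1 (Nn - D) := by
    have e : Nn - D = (Nn - 1) - (D - 1) := by ring
    rw [e]
    exact hN1.sub hD1
  have hYP : Lt A 1 (X * X' - P * P') := by
    have h1 : Lt A 1 ((X * X' - P * P') * D) := by
      have e : (X * X' - P * P') * D = (Nn - D) * (P * P') := by
        rw [sub_mul, hS]
        ring
      rw [e]
      exact mul2 one_ne_zero hND hPPi
    exact (lt_one_or_of_mul (hYi.sub hPPi) hDi h1).resolve_right hDn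
  have hfin : Lt A μ (X * X' - P * P' * (1 - C μ * (ψ₁ - ψ₂))) := by
    have e : X * X' - P * P' * (1 - C μ * (ψ₁ - ψ₂)) =
        (Nn - 1 + C μ * ψ₁) * (P * P') - (D - 1 + C μ * ψ₂) * (X * X')
          + C μ * ((X * X' - P * P') * ψ₂) := by
      have h1 : X * X' = P * P' * Nn - X * X' * (D - 1) := by
        rw [← hS]
        ring
      calc X * X' - P * P' * (1 - C μ * (ψ₁ - ψ₂))
          = (P * P' * Nn - X * X' * (D - 1)) - P * P' * (1 - C μ * (ψ₁ - ψ₂)) := by rw [← h1]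
        _ = _ := by ring
    rw [e]
    refine ((mul2 hμ0 hN hPPi).sub (mul2 hμ0 hD hYi)).add ?_
    have h1 := (mul2 one_ne_zero hYP hψ₂).smul hμ0
    rwa [mul_one] at h1
  obtain ⟨Y, hY, hYi', hYn⟩ := core T hμ0 hμ (hψ₁.sub hψ₂) hX hP hX' hP' hZ hP1 hP'1 hZ1 hfin
  refine ⟨Y, hY, hYi', fun n hn => ?_⟩
  have := hYn n hn
  rwa [HahnSeries.coeff_sub] at this

end Fermat.Agent.S12.FI
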