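/-
S12 / block FI, abstract core: the binomial estimate of step (H) of the blueprint (report #1479):
`S₀ = 1 - τ ψ mod τ 𝔪` implies `S₀ ^ M = 1 - M τ ψ mod M τ 𝔪` as soon as `|τ|^(l-1) < |l|`.
-/
import Fermat.Agent.S12.FI.Core.Basic
import Fermat.Prelude.Def_FLTPrelim_Ramification

set_option autoImplicit false

namespace Fermat.Agent.S12.FI

open HahnSeries (C)

variable {K : Type*} [Field K] {A : ValuationSubring K}

theorem Lt.sum {ι : Type*} {s : Finset ι} {f : ι → LaurentSeries K} {c : K} (hc : c ≠ 0)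
    (h : ∀ i ∈ s, Lt A c (f i)) : Lt A c (∑ i ∈ s, f i) := by
  classical
  induction s using Finset.induction_on with
  | empty =>
    intro n
    rw [Finset.sum_empty, HahnSeries.coeff_zero, map_zero]
    exact zero_lt_iff.2 ((A.valuation.ne_zero_iff).2 hc)
  | insert a s ha ih =>
    rw [Finset.sum_insert ha]
    exact (h a (Finset.mem_insert_self a s)).add
      (ih fun i hi => h i (Finset.mem_insert_of_mem hi))

theorem Le.pow {f : LaurentSeries K} (h : Le A 1 f) (k : ℕ) : Le A 1 (f ^ k) := by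
  induction k with
  | zero => rw [pow_zero]; exact le_one_one
  | succ k ih =>
    rw [pow_succ]
    have := ih.mul h
    rwa [mul_one] at this

theorem valuation_natCast_le_one (n : ℕ) : A.valuation (n : K) ≤ 1 :=
  (A.valuation_le_one_iff _).2 (natCast_mem A n)

/-- the binomial coefficients -/
theorem valuation_choose_mul_pow_lt {τ : K} (hτ0 : τ ≠ 0) {M : ℕ} (hM : (M : K) ≠ 0) {k : ℕ}
    (hk2 : 2 ≤ k) (hk : A.valuation τ ^ (k - 1) < A.valuation (k : K)) :
    A.valuation ((M.choose k : K) * τ ^ k) < A.valuation ((M : K) * τ) := by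
  obtain ⟨M', rfl⟩ : ∃ M', M = M' + 1 := ⟨M - 1, by
    have : M ≠ 0 := by rintro rfl; exact hM Nat.cast_zero
    omega⟩
  obtain ⟨k', rfl⟩ : ∃ k', k = k' + 1 := ⟨k - 1, by omega⟩
  have hid : ((M' + 1 : ℕ) : K) * (M'.choose k' : K) =
      ((M' + 1).choose (k' + 1) : K) * ((k' + 1 : ℕ) : K) := by
    exact_mod_cast congrArg (Nat.cast (R := K)) (Nat.add_one_mul_choose_eq M' k')
  have hkpos : 0 < A.valuation ((k' + 1 : ℕ) : K) := lt_of_le_of_lt zero_le hk
  have hτpos : 0 < A.valuation τ := zero_lt_iff.2 ((A.valuation.ne_zero_iff).2 hτ0)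
  have hMpos : 0 < A.valuation ((M' + 1 : ℕ) : K) := zero_lt_iff.2 ((A.valuation.ne_zero_iff).2 hM)
  have h1 : A.valuation ((M' + 1).choose (k' + 1) : K) * A.valuation ((k' + 1 : ℕ) : K) ≤
      A.valuation ((M' + 1 : ℕ) : K) := by
    rw [← map_mul, ← hid, map_mul]
    exact mul_le_of_le_one_right' (valuation_natCast_le_one _)
  rw [Nat.add_sub_cancel] at hk
  rw [map_mul, map_mul, map_pow, pow_succ, ← mul_assoc]
  refine mul_lt_mul_of_pos_right ?_ hτpos
  calc A.valuation ((M' + 1).choose (k' + 1) : K) * A.valuation τ ^ k'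
      ≤ A.valuation ((M' + 1).choose (k' + 1) : K) * A.valuation τ ^ k' := le_rfl
    _ < A.valuation ((M' + 1 : ℕ) : K) := by
      rcases eq_or_ne (A.valuation ((M' + 1).choose (k' + 1) : K)) 0 with h0 | h0
      · rw [h0, zero_mul]; exact hMpos
      · exact (mul_lt_mul_of_pos_left hk (zero_lt_iff.2 h0)).trans_le h1

/-- **The binomial estimate.** -/
theorem pow_estimate {S₀ ψ : LaurentSeries K} {τ : K} (hτ0 : τ ≠ 0) (hψ : Le A 1 ψ)
    (hS : Lt A τ (S₀ - 1 + C τ * ψ)) (M : ℕ) (hM : (M : K) ≠ 0)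
    (hk : ∀ k : ℕ, 2 ≤ k → A.valuation τ ^ (k - 1) < A.valuation (k : K)) :
    Lt A ((M : K) * τ) (S₀ ^ M - 1 + C ((M : K) * τ) * ψ) := by
  obtain ⟨M', rfl⟩ : ∃ M', M = M' + 1 := ⟨M - 1, by
    have : M ≠ 0 := by rintro rfl; exact hM Nat.cast_zero
    omega⟩
  set φ := C τ⁻¹ * (S₀ - 1) with hφ
  have hCC : (C τ : LaurentSeries K) * C τ⁻¹ = 1 := by
    rw [← map_mul, mul_inv_cancel₀ hτ0, map_one]
  have hS₀ : S₀ = C τ * φ + 1 := by
    rw [hφ, ← mul_assoc, hCC, one_mul, sub_add_cancel]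
  have hφψ : Lt A 1 (φ + ψ) := by
    have e : φ + ψ = C τ⁻¹ * (S₀ - 1 + C τ * ψ) := by
      rw [hφ, mul_add, ← mul_assoc, mul_comm (C τ⁻¹) (C τ), hCC, one_mul]
    rw [e]
    exact (lt_iff_smul hτ0).1 hS
  have hφi : Le A 1 φ := by
    have := hφψ.le.sub hψ
    rwa [add_sub_cancel_right] at this
  have hMτ : ((M' + 1 : ℕ) : K) * τ ≠ 0 := mul_ne_zero hM hτ0
  have key : S₀ ^ (M' + 1) - 1 + C (((M' + 1 : ℕ) : K) * τ) * ψ =
      C (((M' + 1 : ℕ) : K) * τ) * (φ + ψ) +
        ∑ k ∈ Finset.range M', C (((M' + 1).choose (k + 2) : K) * τ ^ (k + 2)) * φ ^ (k + 2) := by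
    rw [hS₀, add_pow, Finset.sum_range_succ', Finset.sum_range_succ']
    simp only [one_pow, mul_one, pow_zero, Nat.choose_zero_right, Nat.cast_one, zero_add, pow_one,
      Nat.choose_one_right]
    have e1 : ∀ k ∈ Finset.range M', (C τ * φ) ^ (k + 1 + 1) *
        (((M' + 1).choose (k + 1 + 1) : ℕ) : LaurentSeries K) =
        C (((M' + 1).choose (k + 2) : K) * τ ^ (k + 2)) * φ ^ (k + 2) := by
      intro k _
      rw [map_mul, map_pow, map_natCast, mul_pow]
      ring
    rw [Finset.sum_congr rfl e1, map_mul, map_natCast]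
    ring
  rw [key]
  refine Lt.add ?_ (Lt.sum hMτ fun k _ => ?_)
  · have := hφψ.smul hMτ
    rwa [mul_one] at this
  · have h1 := (hφi.pow (k + 2)).smul (((M' + 1).choose (k + 2) : K) * τ ^ (k + 2))
    rw [mul_one] at h1
    exact h1.lt_of_lt (valuation_choose_mul_pow_lt hτ0 hM (by omega) (hk _ (by omega)))

theorem valuation_intCast_le_one (n : ℤ) : A.valuation (n : K) ≤ 1 :=
  (A.valuation_le_one_iff _).2 (intCast_mem A n)

/-- integers prime to `l` are units -/
theorem valuation_natCast_eq_one {l : ℕ} (hl : l.Prime) (hA : A.LiesOverPrime l) {n : ℕ}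
    (hn : ¬ l ∣ n) : A.valuation (n : K) = 1 := by
  have hlv : A.valuation (l : K) < 1 := (ValuationSubring.mem_nonunits_iff A).1 hA
  refine le_antisymm (valuation_natCast_le_one n) (not_lt.1 fun h => ?_)
  have hc : IsCoprime (n : ℤ) (l : ℤ) :=
    Nat.isCoprime_iff_coprime.2 ((Nat.Prime.coprime_iff_not_dvd hl).2 hn).symm
  obtain ⟨x, y, hxy⟩ := hc
  have h1 : (x : K) * (n : K) + (y : K) * (l : K) = 1 := by exact_mod_cast congrArg (Int.cast (R := K)) hxy
  have h2 : A.valuation ((x : K) * (n : K) + (y : K) * (l : K)) < 1 := by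
    refine (A.valuation.map_add _ _).trans_lt (max_lt ?_ ?_)
    · rw [map_mul]
      exact (mul_le_of_le_one_left' (valuation_intCast_le_one x)).trans_lt h
    · rw [map_mul]
      exact (mul_le_of_le_one_left' (valuation_intCast_le_one y)).trans_lt hlv
  rw [h1, map_one] at h2
  exact lt_irrefl _ h2

/-- the hypothesis of `pow_estimate` from `|τ|^(l-1) < |l|` -/
theorem valuation_pow_lt_natCast {l : ℕ} (hl : l.Prime) (hA : A.LiesOverPrime l) {τ : K}
    (hτ : A.valuation τ ^ (l - 1) < A.valuation (l : K)) (k : ℕ) (hk : 2 ≤ k) :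
    A.valuation τ ^ (k - 1) < A.valuation (k : K) := by
  have hlv : A.valuation (l : K) < 1 := (ValuationSubring.mem_nonunits_iff A).1 hA
  have hτ1 : A.valuation τ < 1 := by
    by_contra h
    exact absurd (hτ.trans hlv) (not_lt.2 (one_le_pow₀ (not_lt.1 h)))
  obtain ⟨e, m, hm, rfl⟩ := Nat.exists_eq_pow_mul_and_not_dvd (n := k) (by omega) l hl.ne_one
  rw [Nat.cast_mul, Nat.cast_pow, map_mul, map_pow, valuation_natCast_eq_one hl hA hm, mul_one]
  rcases Nat.eq_zero_or_pos e with rfl | he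
  · rw [pow_zero]
    rw [pow_zero, one_mul] at hk ⊢
    exact pow_lt_one₀ zero_le hτ1 (by omega)
  · have h1 : e * (l - 1) ≤ l ^ e * m - 1 := by
      have hm0 : 1 ≤ m := Nat.pos_of_ne_zero (by rintro rfl; exact hm (dvd_zero l))
      have h2 : 1 + e * (l - 1) ≤ l ^ e := by
        have h3 := one_add_mul_le_pow (R := ℤ) (a := (l : ℤ) - 1) (by
          have := hl.two_le
          omega) e
        have h4 : (1 : ℤ) + ((l : ℤ) - 1) = l := by ring
        rw [h4] at h3
        have h5 : ((l - 1 : ℕ) : ℤ) = (l : ℤ) - 1 := by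
          have := hl.one_le
          omega
        have h6 : ((1 + e * (l - 1) : ℕ) : ℤ) ≤ ((l ^ e : ℕ) : ℤ) := by
          push_cast
          rw [h5]
          exact h3
        exact_mod_cast h6
      have h3 : l ^ e ≤ l ^ e * m := Nat.le_mul_of_pos_right _ hm0
      omega
    calc A.valuation τ ^ (l ^ e * m - 1) ≤ A.valuation τ ^ (e * (l - 1)) :=
          pow_le_pow_of_le_one zero_le hτ1.le h1
      _ = (A.valuation τ ^ (l - 1)) ^ e := by rw [mul_comm, pow_mul]
      _ < A.valuation (l : K) ^ e := pow_lt_pow_left₀ hτ zero_le he.ne'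

end Fermat.Agent.S12.FI
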