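/-
S12 / block FI, abstract core: the relation `Near1 A τ u ψ` ("`u = 1 - τ ψ` modulo `τ 𝔪` in the Gauss
valuation ring"), expressed WITHOUT division: `u = Nn / D` with coefficientwise estimates for `Nn`, `D`.
(The `q`-expansion of a quotient such as `1 / (1 - τ j)` has unbounded coefficients, so the congruence
cannot be stated coefficientwise for `u` itself.)
-/
import Fermat.Agent.S12.FI.Core.Frac
import Fermat.Agent.S12.FI.Core.Binom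

set_option autoImplicit false

namespace Fermat.Agent.S12.FI

open HahnSeries (C)

variable {K : Type*} [Field K] (A : ValuationSubring K)

/-- `f = 1 - τ ψ` modulo `τ 𝔪`, coefficientwise, `ψ` integral -/
def Exp1 (τ : K) (f ψ : LaurentSeries K) : Prop := Le A 1 ψ ∧ Lt A τ (f - 1 + C τ * ψ)

/-- `u = Nn / D` with `Nn = 1 - τ ψ₁`, `D = 1 - τ ψ₂` modulo `τ 𝔪`, `ψ = ψ₁ - ψ₂` -/
def Near1 (τ : K) (u ψ : LaurentSeries K) : Prop :=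
  ∃ Nn D ψ₁ ψ₂ : LaurentSeries K, u * D = Nn ∧ ψ = ψ₁ - ψ₂ ∧ Exp1 A τ Nn ψ₁ ∧ Exp1 A τ D ψ₂

variable {A}
variable {τ : K} {f g u u' ψ ψ' : LaurentSeries K}

theorem exp1_one (hτ0 : τ ≠ 0) : Exp1 A τ 1 0 :=
  ⟨le_zero 1, fun n => by
    rw [sub_self, mul_zero, add_zero, HahnSeries.coeff_zero, map_zero]
    exact zero_lt_iff.2 ((A.valuation.ne_zero_iff).2 hτ0)⟩

theorem Exp1.ne_zero (h : Exp1 A τ f ψ) : τ ≠ 0 := h.2.ne_zero

/-- `f ≡ 1` modulo `𝔪` -/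
theorem Exp1.lt_one (h : Exp1 A τ f ψ) (hτ : A.valuation τ < 1) : Lt A 1 (f - 1) := by
  have h1 : Lt A 1 (f - 1 + C τ * ψ) := h.2.mono (by rw [map_one]; exact hτ.le)
  have := h1.sub (h.1.smul_lt one_ne_zero hτ)
  rwa [add_sub_cancel_right] at this

theorem Exp1.series_ne_zero (h : Exp1 A τ f ψ) (hτ : A.valuation τ < 1) : f ≠ 0 := by
  rintro rfl
  exact not_lt_one_of_sub_one (h.lt_one hτ) (fun n => by simp)

theorem Exp1.mul (hτ : A.valuation τ < 1) (h : Exp1 A τ f ψ) (h' : Exp1 A τ g ψ') :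
    Exp1 A τ (f * g) (ψ + ψ') := by
  have hτ0 := h.ne_zero
  refine ⟨h.1.add h'.1, ?_⟩
  have e : f * g - 1 + C τ * (ψ + ψ') =
      (f - 1 + C τ * ψ) * g + (g - 1 + C τ * ψ') - C τ * ((g - 1) * ψ) := by ring
  rw [e]
  have hg : Le A 1 g := (h'.lt_one hτ).le_of_sub_one
  refine (Lt.add ?_ h'.2).sub ?_
  · have := h.2.mul_le hg one_ne_zero
    rwa [mul_one] at this
  · have h1 := (h'.lt_one hτ).mul_le h.1 one_ne_zero
    have h2 := h1.smul hτ0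
    rwa [mul_one, mul_one] at h2

/-- the binomial estimate -/
theorem Exp1.pow (h : Exp1 A τ f ψ) (M : ℕ) (hM : (M : K) ≠ 0)
    (hk : ∀ k : ℕ, 2 ≤ k → A.valuation τ ^ (k - 1) < A.valuation (k : K)) :
    Exp1 A ((M : K) * τ) (f ^ M) ψ :=
  ⟨h.1, pow_estimate h.ne_zero h.1 h.2 M hM hk⟩

/-- transport by a ring endomorphism of `K((q))` preserving the estimates and the constants
(`q ↦ q^m`, `q ↦ ζ q`) -/
theorem Exp1.map (φ : LaurentSeries K →+* LaurentSeries K) (hC : ∀ c : K, φ (C c) = C c)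
    (hle : ∀ (c : K) (x : LaurentSeries K), Le A c x → Le A c (φ x))
    (hlt : ∀ (c : K) (x : LaurentSeries K), Lt A c x → Lt A c (φ x)) (h : Exp1 A τ f ψ) :
    Exp1 A τ (φ f) (φ ψ) := by
  refine ⟨hle _ _ h.1, ?_⟩
  have := hlt _ _ h.2
  rwa [map_add, map_sub, map_one, map_mul, hC] at this

theorem near1_one (hτ0 : τ ≠ 0) : Near1 A τ 1 0 :=
  ⟨1, 1, 0, 0, one_mul 1, (sub_zero 0).symm, exp1_one hτ0, exp1_one hτ0⟩

theorem Exp1.near1 (h : Exp1 A τ f ψ) : Near1 A τ f ψ :=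
  ⟨f, 1, ψ, 0, mul_one f, (sub_zero ψ).symm, h, exp1_one h.ne_zero⟩

theorem Near1.mul (hτ : A.valuation τ < 1) (h : Near1 A τ u ψ) (h' : Near1 A τ u' ψ') :
    Near1 A τ (u * u') (ψ + ψ') := by
  obtain ⟨Nn, D, ψ₁, ψ₂, e, rfl, hN, hD⟩ := h
  obtain ⟨Nn', D', ψ₁', ψ₂', e', rfl, hN', hD'⟩ := h'
  exact ⟨Nn * Nn', D * D', ψ₁ + ψ₁', ψ₂ + ψ₂', by rw [← e, ← e']; ring, by ring,
    hN.mul hτ hN', hD.mul hτ hD'⟩

theorem Near1.inv (hτ : A.valuation τ < 1) (h : Near1 A τ u ψ) : Near1 A τ u⁻¹ (-ψ) := by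
  obtain ⟨Nn, D, ψ₁, ψ₂, e, rfl, hN, hD⟩ := h
  have hu : u ≠ 0 := by
    rintro rfl
    rw [zero_mul] at e
    exact hN.series_ne_zero hτ e.symm
  exact ⟨D, Nn, ψ₂, ψ₁, by rw [← e, ← mul_assoc, inv_mul_cancel₀ hu, one_mul], by ring, hD, hN⟩

theorem Near1.pow (h : Near1 A τ u ψ) (M : ℕ) (hM : (M : K) ≠ 0)
    (hk : ∀ k : ℕ, 2 ≤ k → A.valuation τ ^ (k - 1) < A.valuation (k : K)) :
    Near1 A ((M : K) * τ) (u ^ M) ψ := by
  obtain ⟨Nn, D, ψ₁, ψ₂, e, rfl, hN, hD⟩ := h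
  exact ⟨Nn ^ M, D ^ M, ψ₁, ψ₂, by rw [← e, mul_pow], rfl, hN.pow M hM hk, hD.pow M hM hk⟩

theorem Near1.map (φ : LaurentSeries K →+* LaurentSeries K) (hC : ∀ c : K, φ (C c) = C c)
    (hle : ∀ (c : K) (x : LaurentSeries K), Le A c x → Le A c (φ x))
    (hlt : ∀ (c : K) (x : LaurentSeries K), Lt A c x → Lt A c (φ x)) (h : Near1 A τ u ψ) :
    Near1 A τ (φ u) (φ ψ) := by
  obtain ⟨Nn, D, ψ₁, ψ₂, e, rfl, hN, hD⟩ := h
  exact ⟨φ Nn, φ D, φ ψ₁, φ ψ₂, by rw [← e, map_mul], map_sub φ _ _, hN.map φ hC hle hlt,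
    hD.map φ hC hle hlt⟩

variable {Rinf Rzero : Subring (LaurentSeries K)}
variable {X P X' P' Z S : LaurentSeries K} {μ : K}

/-- **The abstract core of FI**, final form. -/
theorem core'' (T : TwoChart A Rinf Rzero) (hμ : A.valuation μ < 1) (hS : Near1 A μ S ψ)
    (hX : X ∈ Rinf) (hP : P ∈ Rinf) (hX' : X' ∈ Rzero) (hP' : P' ∈ Rzero) (hZ : Z ∈ Rzero)
    (hP1 : Lt A 1 (P - 1)) (hP'1 : Lt A 1 (P' - 1)) (hZ1 : Lt A 1 (Z * X' - 1))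
    (hXX : X * X' = S * (P * P')) :
    ∃ Y ∈ Rinf, Le A 1 Y ∧ ∀ n : ℤ, n < 0 → A.valuation (Y.coeff n + ψ.coeff n) < 1 := by
  obtain ⟨Nn, D, ψ₁, ψ₂, e, rfl, hN, hD⟩ := hS
  obtain ⟨Y, hY, hYi, hYn⟩ := core' T hN.ne_zero hμ hN.1 hD.1 hX hP hX' hP' hZ hP1 hP'1 hZ1 hN.2 hD.2
    (by rw [hXX, ← e]; ring)
  refine ⟨Y, hY, hYi, fun n hn => ?_⟩
  rw [HahnSeries.coeff_sub]
  exact hYn n hn

end Fermat.Agent.S12.FI
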